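import Mathlib
import Fermat.Agent.MW17.Setup
import Fermat.Agent.V.Pres.Count

/-!
# Program MW (S17), heights half (A), leaf (NSS-CURVE) = LOC-2, part 1: `L_{ks} = (L_k)^s`

Owner: helper19.  Namespace `Fermat.Agent.MW17`, prefix `mw17cn`.

For `k ≥ 2·δ.bound` every element of pole order `≤ k s` of the table ring `B = V27pB T` is the
value at the monomials `mw17Mon T i`, `i : Mw17Idx δ k`, of a homogeneous polynomial of degree `s`
(`mw17cn_split`).  Pure pole-order induction (`v27pOrd_hone`) + semigroup arithmetic.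
-/

set_option autoImplicit false

noncomputable section

namespace Fermat.Agent.MW17

open Fermat.Agent.V MvPolynomial

variable {K : Type*} [Field K] {δ : V27pShape} (T : V27pTable K δ)

/-- evaluation of polynomials in the variables `y_i`, `i : Mw17Idx δ k`, at the monomials -/
def mw17cnEv (k : ℕ) : MvPolynomial (Mw17Idx δ k) K →ₐ[K] V27pB T :=
  MvPolynomial.aeval (mw17Mon T (m := k))

@[simp] theorem mw17cnEv_X (k : ℕ) (i : Mw17Idx δ k) : mw17cnEv T k (X i) = mw17Mon T i := by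
  simp [mw17cnEv]

theorem mw17cn_mon_eq_smul {k : ℕ} (i : Mw17Idx δ k) :
    mw17Mon T i = (Polynomial.X ^ (i.1.2 : ℕ) : Polynomial K) • V27pB.e (T := T) i.1.1 := by
  rw [mw17Mon, V27pB.x, ← map_pow, Algebra.smul_def]

theorem mw17cn_ord_mon {k : ℕ} (i : Mw17Idx δ k) : v27pOrd (mw17Mon T i) = mw17Wt i := by
  rw [mw17cn_mon_eq_smul, v27pOrd_smul_e _ (pow_ne_zero _ Polynomial.X_ne_zero),
    Polynomial.natDegree_X_pow]
  rfl

theorem mw17cn_mon_ne_zero {k : ℕ} (i : Mw17Idx δ k) : mw17Mon T i ≠ 0 := by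
  rw [mw17cn_mon_eq_smul]
  intro h
  have h1 := congrFun h i.1.1
  rw [V27pB.smul_e_apply, if_pos rfl] at h1
  exact pow_ne_zero _ Polynomial.X_ne_zero h1

/-- the index of the monomial of weight `l ≤ k`, if `l` is a pole order -/
theorem mw17cn_exists_idx {k l : ℕ} (hl : l ≤ k) (h : ∃ (j : ZMod δ.N) (r : ℕ), δ.N * r + δ.d j = l) :
    ∃ i : Mw17Idx δ k, mw17Wt i = l := by
  obtain ⟨j, r, hjr⟩ := h
  have hN := δ.hN
  have hr : r < k + 1 := by
    have : r ≤ δ.N * r := Nat.le_mul_of_pos_left r hN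
    omega
  exact ⟨⟨(j, ⟨r, hr⟩), by simp only; omega⟩, hjr⟩

/-- all integers `≥ δ.bound` are pole orders -/
theorem mw17cn_nongap {l : ℕ} (hl : δ.bound ≤ l) :
    ∃ (j : ZMod δ.N) (r : ℕ), δ.N * r + δ.d j = l := by
  refine ⟨(l : ZMod δ.N), (l - δ.d (l : ZMod δ.N)) / δ.N, ?_⟩
  have hd : δ.d (l : ZMod δ.N) ≤ l := (δ.d_le_bound _).trans hl
  have hdvd : δ.N ∣ l - δ.d (l : ZMod δ.N) := by
    rw [← ZMod.natCast_eq_zero_iff, Nat.cast_sub hd, δ.d_cong, sub_self]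
  rw [Nat.mul_div_cancel' hdvd]
  omega

/-- semigroup arithmetic: a pole order `l ≤ k (s+1)` splits as `l₁ + l₂` with pole orders
`l₁ ≤ k s`, `l₂ ≤ k` -/
theorem mw17cn_arith {k : ℕ} (hk : 2 * δ.bound ≤ k) (s l : ℕ) (hl : l ≤ k * (s + 1))
    (h : ∃ (j : ZMod δ.N) (r : ℕ), δ.N * r + δ.d j = l) :
    ∃ l₁ l₂ : ℕ, l₁ + l₂ = l ∧ l₁ ≤ k * s ∧ l₂ ≤ k ∧
      (∃ (j : ZMod δ.N) (r : ℕ), δ.N * r + δ.d j = l₁) ∧
      (∃ (j : ZMod δ.N) (r : ℕ), δ.N * r + δ.d j = l₂) := by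
  have h0 : ∃ (j : ZMod δ.N) (r : ℕ), δ.N * r + δ.d j = 0 := ⟨0, 0, by simp [δ.d_zero]⟩
  by_cases h1 : l ≤ k * s
  · exact ⟨l, 0, by omega, h1, by omega, h, h0⟩
  push Not at h1
  rcases Nat.eq_zero_or_pos s with rfl | hs
  · exact ⟨0, l, by omega, by omega, by omega, h0, h⟩
  have hks : k ≤ k * s := Nat.le_mul_of_pos_right k hs
  rw [Nat.mul_add, Nat.mul_one] at hl
  by_cases h2 : k + δ.bound ≤ l
  · exact ⟨l - k, k, by omega, by omega, le_rfl, mw17cn_nongap (by omega), mw17cn_nongap (by omega)⟩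
  · push Not at h2
    exact ⟨δ.bound, l - δ.bound, by omega, by omega, by omega, mw17cn_nongap le_rfl,
      mw17cn_nongap (by omega)⟩

/-- a homogeneous monomial expression of degree `s` of any prescribed pole order `l ≤ k s` -/
theorem mw17cn_exists_hom_ord {k : ℕ} (hk : 2 * δ.bound ≤ k) (s : ℕ) :
    ∀ l : ℕ, l ≤ k * s → (∃ (j : ZMod δ.N) (r : ℕ), δ.N * r + δ.d j = l) →
      ∃ p : MvPolynomial (Mw17Idx δ k) K, p.IsHomogeneous s ∧ mw17cnEv T k p ≠ 0 ∧
        v27pOrd (mw17cnEv T k p) = l := by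
  induction s with
  | zero =>
    intro l hl _
    refine ⟨1, isHomogeneous_one _ _, ?_, ?_⟩
    · rw [map_one]; exact one_ne_zero
    · rw [map_one, v27pOrd_one]; omega
  | succ s ih =>
    intro l hl h
    obtain ⟨l₁, l₂, hsum, hl₁, hl₂, hΛ₁, hΛ₂⟩ := mw17cn_arith hk s l hl h
    obtain ⟨p₁, hp₁, hne₁, hord₁⟩ := ih l₁ hl₁ hΛ₁
    obtain ⟨i, hi⟩ := mw17cn_exists_idx (δ := δ) hl₂ hΛ₂
    refine ⟨p₁ * X i, hp₁.mul (isHomogeneous_X _ _), ?_, ?_⟩
    · rw [map_mul, mw17cnEv_X]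
      exact mul_ne_zero hne₁ (mw17cn_mon_ne_zero T i)
    · rw [map_mul, mw17cnEv_X, v27pOrd_mul hne₁ (mw17cn_mon_ne_zero T i), hord₁, mw17cn_ord_mon,
        hi, hsum]

/-- **`L_{ks} = (L_k)^s`**: for `k ≥ 2·δ.bound`, every element of pole order `≤ k s` is a
homogeneous polynomial of degree `s` in the monomials of `L_k`. -/
theorem mw17cn_split {k : ℕ} (hk : 2 * δ.bound ≤ k) (s : ℕ) (b : V27pB T)
    (hb : V27pLe b (k * s)) :
    ∃ p : MvPolynomial (Mw17Idx δ k) K, p.IsHomogeneous s ∧ mw17cnEv T k p = b := by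
  suffices H : ∀ n : ℕ, ∀ b : V27pB T, v27pOrd b = n → V27pLe b (k * s) →
      ∃ p : MvPolynomial (Mw17Idx δ k) K, p.IsHomogeneous s ∧ mw17cnEv T k p = b from
    H _ b rfl hb
  intro n
  induction n using Nat.strong_induction_on with
  | _ n ih =>
    intro b hn hb
    by_cases hb0 : b = 0
    · exact ⟨0, isHomogeneous_zero _ _ _, by rw [map_zero, hb0]⟩
    have hle : v27pOrd b ≤ k * s := (v27pOrd_le_iff b _).mpr hb
    obtain ⟨j, _, hj⟩ := v27p_exists_top hb0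
    obtain ⟨p₀, hp₀, hne₀, hord₀⟩ :=
      mw17cn_exists_hom_ord T hk s (v27pOrd b) hle ⟨j, _, hj⟩
    obtain ⟨c, hc⟩ := v27pOrd_hone hb0 hne₀ hord₀.symm
    have hp₀c : (C c * p₀).IsHomogeneous s := by
      have := (isHomogeneous_C (Mw17Idx δ k) c).mul hp₀
      rwa [zero_add] at this
    have hev : mw17cnEv T k (C c * p₀) = c • mw17cnEv T k p₀ := by
      rw [map_mul, Algebra.smul_def]
      congr 1
      exact (mw17cnEv T k).commutes c
    by_cases h0 : b - c • mw17cnEv T k p₀ = 0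
    · exact ⟨C c * p₀, hp₀c, by rw [hev]; exact (sub_eq_zero.mp h0).symm⟩
    · have hlt : v27pOrd (b - c • mw17cnEv T k p₀) < n := by
        rcases hc with hc | hc
        · exact absurd hc h0
        · rwa [hn] at hc
      have hle' : V27pLe (b - c • mw17cnEv T k p₀) (k * s) := by
        refine hb.sub (V27pLe.smul_const ?_ c)
        rw [← v27pOrd_le_iff, hord₀]
        exact hle
      obtain ⟨p', hp', hev'⟩ := ih _ hlt _ rfl hle'
      refine ⟨p' + C c * p₀, hp'.add hp₀c, ?_⟩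
      rw [map_add, hev', hev]
      abel

end Fermat.Agent.MW17
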