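import Mathlib
import Fermat.Agent.MW17.Cone.Split
import Fermat.Agent.V.Pts.Inst.Points

/-!
# Program MW (S17), heights half (A), leaf (NSS-CURVE) = LOC-2, part 2: the cone over the curve

Owner: helper19.  Namespace `Fermat.Agent.MW17`, prefix `mw17cn`.

`mw17cnRel T k` : the homogeneous polynomial relations among the monomials `mw17Mon T i`,
`i : Mw17Idx δ k`.  A common zero `y ≠ 0` of all of them is, for `k ≥ δ.N + 2·δ.bound`, either
`c • ψ_k(q)` for a finite point `q` (`c ≠ 0`), or supported on the top index (the point at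
infinity): `mw17cn_locus`.
-/

set_option autoImplicit false

noncomputable section

namespace Fermat.Agent.MW17

open Fermat.Agent.V MvPolynomial

variable {K : Type*} [Field K] {δ : V27pShape} (T : V27pTable K δ)

/-- the homogeneous relations among the monomials of `L_k` -/
def mw17cnRel (k : ℕ) : Set (MvPolynomial (Mw17Idx δ k) K) :=
  {g | (∃ n, g.IsHomogeneous n) ∧ mw17cnEv T k g = 0}

/-- `y` is a common zero of all homogeneous relations: a point of the cone over the closure of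
the image of the curve under `ψ_k` -/
def Mw17cnZero (k : ℕ) (y : Mw17Idx δ k → K) : Prop :=
  ∀ g ∈ mw17cnRel T k, MvPolynomial.aeval y g = 0

variable {T}

theorem mw17cn_aeval_psi (k : ℕ) (q : Mw17Pt T) (g : MvPolynomial (Mw17Idx δ k) K) :
    MvPolynomial.aeval (mw17Psi T k q) g = q (mw17cnEv T k g) := by
  rw [mw17cnEv, MvPolynomial.comp_aeval_apply]
  rfl

theorem mw17cn_zero_psi (k : ℕ) (q : Mw17Pt T) : Mw17cnZero T k (mw17Psi T k q) := by
  intro g hg
  rw [mw17cn_aeval_psi, hg.2, map_zero]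

theorem mw17cn_aeval_smul {σ : Type*} [Fintype σ] {n : ℕ} (g : MvPolynomial σ K)
    (hn : g.IsHomogeneous n) (c : K) (y : σ → K) :
    MvPolynomial.aeval (c • y) g = c ^ n * MvPolynomial.aeval y g := by
  show MvPolynomial.eval (c • y) g = c ^ n * MvPolynomial.eval y g
  rw [MvPolynomial.eval_eq', MvPolynomial.eval_eq', Finset.mul_sum]
  apply Finset.sum_congr rfl
  intro d hd
  have h1 : ∑ i, d i = n := by
    have := hn (mem_support_iff.mp hd)
    rw [← this, ← Finsupp.degree_eq_sum, Finsupp.degree_eq_weight_one]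
    rfl
  simp only [Pi.smul_apply, smul_eq_mul, mul_pow, Finset.prod_mul_distrib,
    Finset.prod_pow_eq_pow_sum, h1]
  ring

theorem mw17cn_zero_smul {k : ℕ} {y : Mw17Idx δ k → K} (hy : Mw17cnZero T k y) (c : K) :
    Mw17cnZero T k (c • y) := by
  intro g hg
  obtain ⟨n, hn⟩ := hg.1
  rw [mw17cn_aeval_smul g hn, hy g hg, mul_zero]

/-- dehomogenisation: a zero with `y_0 = 1` of the homogeneous relations satisfies all relations -/
theorem mw17cn_zero_all {k : ℕ} {y : Mw17Idx δ k → K} (hy : Mw17cnZero T k y)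
    (h0 : y (mw17IdxZero δ k) = 1) (g : MvPolynomial (Mw17Idx δ k) K)
    (hg : mw17cnEv T k g = 0) : MvPolynomial.aeval y g = 0 := by
  set D := g.totalDegree with hD
  set gh : MvPolynomial (Mw17Idx δ k) K :=
    ∑ n ∈ Finset.range (D + 1), X (mw17IdxZero δ k) ^ (D - n) * homogeneousComponent n g with hgh
  have hhom : gh.IsHomogeneous D := by
    apply IsHomogeneous.sum
    intro n hn
    have hn' : n ≤ D := Nat.lt_succ_iff.mp (Finset.mem_range.mp hn)
    have h1 := ((isHomogeneous_X K (mw17IdxZero δ k)).pow (D - n)).mul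
      (homogeneousComponent_isHomogeneous n g)
    have h2 : 1 * (D - n) + n = D := by omega
    rwa [h2] at h1
  have hev : mw17cnEv T k gh = 0 := by
    rw [hgh, map_sum]
    have : ∀ n ∈ Finset.range (D + 1),
        mw17cnEv T k (X (mw17IdxZero δ k) ^ (D - n) * homogeneousComponent n g) =
          mw17cnEv T k (homogeneousComponent n g) := by
      intro n _
      rw [map_mul, map_pow, mw17cnEv_X, mw17Mon_zero, one_pow, one_mul]
    rw [Finset.sum_congr rfl this, ← map_sum, sum_homogeneousComponent, hg]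
  have h1 := hy gh ⟨⟨D, hhom⟩, hev⟩
  rw [hgh, map_sum] at h1
  have : ∀ n ∈ Finset.range (D + 1),
      MvPolynomial.aeval y (X (mw17IdxZero δ k) ^ (D - n) * homogeneousComponent n g) =
        MvPolynomial.aeval y (homogeneousComponent n g) := by
    intro n _
    rw [map_mul, map_pow, aeval_X, h0, one_pow, one_mul]
  rw [Finset.sum_congr rfl this, ← map_sum, sum_homogeneousComponent] at h1
  exact h1

/-! ### the finite part of the cone: points with `y_0 = 1` -/

/-- the index of `x` -/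
def mw17cnIx {k : ℕ} (hN : δ.N ≤ k) : Mw17Idx δ k :=
  ⟨((0 : ZMod δ.N), ⟨1, by have := δ.hN; omega⟩), by simp only [δ.d_zero]; omega⟩

/-- the index of `e_j` -/
def mw17cnIe {k : ℕ} (j : ZMod δ.N) (hj : δ.d j ≤ k) : Mw17Idx δ k :=
  ⟨(j, ⟨0, by omega⟩), by simp only; omega⟩

theorem mw17cn_mon_ix {k : ℕ} (hN : δ.N ≤ k) : mw17Mon T (mw17cnIx hN) = V27pB.x := by
  simp [mw17Mon, mw17cnIx, V27pB.e_zero]

theorem mw17cn_mon_ie {k : ℕ} (j : ZMod δ.N) (hj : δ.d j ≤ k) :
    mw17Mon T (mw17cnIe j hj) = V27pB.e j := by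
  simp [mw17Mon, mw17cnIe]

theorem mw17cn_e_mul_e (i j : ZMod δ.N) :
    (V27pB.e i * V27pB.e j : V27pB T) =
      ∑ l, Polynomial.aeval (V27pB.x (T := T)) (T.c i j l) * V27pB.e l := by
  conv_lhs => rw [V27pB.eq_sum_smul_e (V27pB.e i * V27pB.e j : V27pB T)]
  apply Finset.sum_congr rfl
  intro l _
  rw [V27pB.e_mul_e_apply, Algebra.smul_def]
  congr 1
  rw [V27pB.x, Polynomial.aeval_algebraMap_apply, Polynomial.aeval_X_left_apply]

/-- a zero `y` of the relations with `y_0 = 1` is `ψ_k(q)` for a finite point `q` -/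
theorem mw17cn_exists_point {k : ℕ} (hN : δ.N ≤ k) (hd : ∀ j, δ.d j ≤ k)
    {y : Mw17Idx δ k → K} (hy : Mw17cnZero T k y) (h0 : y (mw17IdxZero δ k) = 1) :
    ∃ q : Mw17Pt T, mw17Psi T k q = y := by
  have hall := mw17cn_zero_all hy h0
  have hpt : V27piPtEq T (y (mw17cnIx hN)) (fun j => y (mw17cnIe j (hd j))) := by
    refine ⟨?_, fun i j => ?_⟩
    · have : mw17cnIe (0 : ZMod δ.N) (hd 0) = mw17IdxZero δ k := rfl
      simp only [this, h0]
    · have h1 := hall (X (mw17cnIe i (hd i)) * X (mw17cnIe j (hd j)) -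
        ∑ l, Polynomial.aeval (X (mw17cnIx hN) : MvPolynomial (Mw17Idx δ k) K) (T.c i j l) *
          X (mw17cnIe l (hd l))) (by
        rw [map_sub, map_mul, mw17cnEv_X, mw17cnEv_X, mw17cn_mon_ie, mw17cn_mon_ie, map_sum,
          mw17cn_e_mul_e, sub_eq_zero]
        apply Finset.sum_congr rfl
        intro l _
        rw [map_mul, mw17cnEv_X, mw17cn_mon_ie, ← Polynomial.aeval_algHom_apply, mw17cnEv_X,
          mw17cn_mon_ix])
      rw [map_sub, map_mul, aeval_X, aeval_X, map_sum, sub_eq_zero] at h1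
      rw [h1]
      apply Finset.sum_congr rfl
      intro l _
      rw [map_mul, aeval_X, ← Polynomial.aeval_algHom_apply, aeval_X, Polynomial.coe_aeval_eq_eval]
  refine ⟨v27piPoint _ _ hpt, ?_⟩
  funext i
  have h1 := hall (X i - X (mw17cnIx hN) ^ (i.1.2 : ℕ) * X (mw17cnIe i.1.1 (hd i.1.1))) (by
    rw [map_sub, map_mul, map_pow, mw17cnEv_X, mw17cnEv_X, mw17cnEv_X, mw17cn_mon_ie,
      mw17cn_mon_ix, sub_eq_zero]
    rfl)
  rw [map_sub, map_mul, map_pow, aeval_X, aeval_X, aeval_X, sub_eq_zero] at h1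
  rw [h1, mw17Psi, mw17Mon, map_mul, map_pow, v27piPoint_x, v27piPoint_e]

/-! ### the part at infinity: points with `y_0 = 0` -/

theorem mw17cn_le_pow {a : V27pB T} {A : ℕ} (ha : V27pLe a A) (n : ℕ) :
    V27pLe (a ^ n) (n * A) := by
  induction n with
  | zero =>
    rw [pow_zero, Nat.zero_mul, ← v27pOrd_le_iff, v27pOrd_one]
  | succ n ih =>
    rw [pow_succ, Nat.succ_mul]
    exact ih.mul ha

theorem mw17cn_idx_ext {k : ℕ} {i i' : Mw17Idx δ k} (h : mw17Wt i = mw17Wt i') : i = i' := by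
  obtain ⟨h1, h2⟩ := δ.weight_inj h
  apply Subtype.ext
  apply Prod.ext h1
  exact Fin.ext h2

/-- a zero `y` of the relations with `y_0 = 0` vanishes at every index of weight `< k` -/
theorem mw17cn_zero_at_infinity {k : ℕ} (hk : 2 * δ.bound ≤ k)
    {y : Mw17Idx δ k → K} (hy : Mw17cnZero T k y) (h0 : y (mw17IdxZero δ k) = 0)
    (i : Mw17Idx δ k) (hi : mw17Wt i < k) : y i = 0 := by
  have hk1 : 1 ≤ k := by omega
  have hle : V27pLe (mw17Mon T i ^ k) (k * (k - 1)) := by
    have h1 : V27pLe (mw17Mon T i) (mw17Wt i) := by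
      rw [← v27pOrd_le_iff, mw17cn_ord_mon]
    refine (mw17cn_le_pow h1 k).mono (Nat.mul_le_mul_left k ?_)
    omega
  obtain ⟨p, hp, hev⟩ := mw17cn_split T hk (k - 1) _ hle
  have hhom : (X i ^ k - X (mw17IdxZero δ k) * p : MvPolynomial (Mw17Idx δ k) K).IsHomogeneous k := by
    have h1 := (isHomogeneous_X K i).pow k
    rw [Nat.one_mul] at h1
    have h2 := (isHomogeneous_X K (mw17IdxZero δ k)).mul hp
    have h3 : 1 + (k - 1) = k := by omega
    rw [h3] at h2
    exact h1.sub h2
  have h1 := hy _ ⟨⟨k, hhom⟩, by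
    rw [map_sub, map_mul, map_pow, mw17cnEv_X, mw17cnEv_X, mw17Mon_zero, one_mul, hev, sub_self]⟩
  rw [map_sub, map_mul, map_pow, aeval_X, aeval_X, h0, zero_mul, sub_zero] at h1
  exact pow_eq_zero_iff (by omega) |>.mp h1

/-- **the cone over the complete curve**: a non-zero common zero of the homogeneous relations
among the monomials of `L_k` is a non-zero multiple of `ψ_k(q)` for a finite point `q`, or is
supported at the top index. -/
theorem mw17cn_locus {k : ℕ} (hk : δ.N + 2 * δ.bound ≤ k)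
    {y : Mw17Idx δ k → K} (hy : Mw17cnZero T k y) :
    (∃ (c : K) (q : Mw17Pt T), c ≠ 0 ∧ y = c • mw17Psi T k q) ∨
      ∀ i : Mw17Idx δ k, mw17Wt i < k → y i = 0 := by
  by_cases h0 : y (mw17IdxZero δ k) = 0
  · exact Or.inr (mw17cn_zero_at_infinity (by omega) hy h0)
  · left
    have hd : ∀ j, δ.d j ≤ k := fun j => by have := δ.d_le_bound j; omega
    have hy' := mw17cn_zero_smul hy (y (mw17IdxZero δ k))⁻¹
    obtain ⟨q, hq⟩ := mw17cn_exists_point (by omega) hd hy' (by
      rw [Pi.smul_apply, smul_eq_mul, inv_mul_cancel₀ h0])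
    refine ⟨y (mw17IdxZero δ k), q, h0, ?_⟩
    rw [hq, smul_smul, mul_inv_cancel₀ h0, one_smul]

end Fermat.Agent.MW17
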