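import Mathlib
import Fermat.Agent.MW17.Cone.Locus
import Fermat.Agent.HT.NssBi

/-!
# Program MW (S17), heights half (A), leaf (NSS-CURVE) = LOC-2, part 3: the certificate

Owner: helper19.  Namespace `Fermat.Agent.MW17`, prefix `mw17cn`.

`mw17cn_certificate` : the bihomogeneous Nullstellensatz certificate (helper26's
`htns_exists_bicertificate`) on `P(K^{Idx m}) × (cone over the complete curve in L_k-coordinates)`,
evaluated at `(u, ψ_k q)`.
-/

set_option autoImplicit false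

noncomputable section

namespace Fermat.Agent.MW17

open Fermat.Agent.V Fermat.Agent.HT MvPolynomial

/-! ### bidegrees of renamed polynomials -/

theorem mw17cn_weight_inr {ι₁ ι₂ : Type*} (u : ι₂ →₀ ℕ) :
    Finsupp.weight (htnsBiw ι₁ ι₂) (Finsupp.mapDomain Sum.inr u) =
      (0, Finsupp.weight (1 : ι₂ → ℕ) u) := by
  induction u using Finsupp.induction_linear with
  | zero => simp; rfl
  | add f g hf hg => rw [Finsupp.mapDomain_add, map_add, map_add, hf, hg]; rfl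
  | single a b =>
    rw [Finsupp.mapDomain_single, Finsupp.weight_single, Finsupp.weight_single]
    simp [htnsBiw]

theorem mw17cn_weight_inl {ι₁ ι₂ : Type*} (u : ι₁ →₀ ℕ) :
    Finsupp.weight (htnsBiw ι₁ ι₂) (Finsupp.mapDomain Sum.inl u) =
      (Finsupp.weight (1 : ι₁ → ℕ) u, 0) := by
  induction u using Finsupp.induction_linear with
  | zero => simp; rfl
  | add f g hf hg => rw [Finsupp.mapDomain_add, map_add, map_add, hf, hg]; rfl
  | single a b =>
    rw [Finsupp.mapDomain_single, Finsupp.weight_single, Finsupp.weight_single]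
    simp [htnsBiw]

theorem mw17cn_bihom_inr {K ι₁ ι₂ : Type*} [Field K] {n : ℕ} (g : MvPolynomial ι₂ K)
    (hg : g.IsHomogeneous n) :
    IsWeightedHomogeneous (htnsBiw ι₁ ι₂) (rename Sum.inr g) (0, n) := by
  intro d hd
  obtain ⟨u, rfl, hu⟩ := coeff_rename_ne_zero _ _ _ hd
  have h1 : Finsupp.weight (1 : ι₂ → ℕ) u = n := hg hu
  rw [mw17cn_weight_inr, h1]

theorem mw17cn_bihom_inl {K ι₁ ι₂ : Type*} [Field K] {n : ℕ} (g : MvPolynomial ι₁ K)
    (hg : g.IsHomogeneous n) :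
    IsWeightedHomogeneous (htnsBiw ι₁ ι₂) (rename Sum.inl g) (n, 0) := by
  intro d hd
  obtain ⟨u, rfl, hu⟩ := coeff_rename_ne_zero _ _ _ hd
  have h1 : Finsupp.weight (1 : ι₁ → ℕ) u = n := hg hu
  rw [mw17cn_weight_inl, h1]

variable {K : Type*} [Field K] {δ : V27pShape} (T : V27pTable K δ)

/-- the bihomogeneous ideal of `K^{Idx m} × (cone over the curve in L_k-coordinates)` -/
def mw17cnI (m k : ℕ) : Ideal (MvPolynomial (Mw17Idx δ m ⊕ Mw17Idx δ k) K) :=
  Ideal.span (MvPolynomial.rename Sum.inr '' mw17cnRel T k)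

attribute [local instance] MvPolynomial.weightedGradedAlgebra

theorem mw17cnI_component_mem (m k : ℕ) (f : MvPolynomial (Mw17Idx δ m ⊕ Mw17Idx δ k) K)
    (hf : f ∈ mw17cnI T m k) (n : ℕ × ℕ) :
    weightedHomogeneousComponent (htnsBiw (Mw17Idx δ m) (Mw17Idx δ k)) n f ∈ mw17cnI T m k := by
  classical
  refine weightedHomogeneousComponent_mem_of_mem K _ ?_ hf n
  apply Ideal.homogeneous_span
  rintro _ ⟨g, ⟨⟨d, hd⟩, _⟩, rfl⟩
  exact ⟨(0, d), (mem_weightedHomogeneousSubmodule K _ _ _).mpr (mw17cn_bihom_inr g hd)⟩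

variable {T}

theorem mw17cnI_aeval_eq_zero {m k : ℕ} {u : Mw17Idx δ m → K} {y : Mw17Idx δ k → K}
    (hy : Mw17cnZero T k y) (f : MvPolynomial (Mw17Idx δ m ⊕ Mw17Idx δ k) K)
    (hf : f ∈ mw17cnI T m k) : MvPolynomial.aeval (Sum.elim u y) f = 0 := by
  have hle : mw17cnI T m k ≤ RingHom.ker (MvPolynomial.aeval (Sum.elim u y) :
      MvPolynomial (Mw17Idx δ m ⊕ Mw17Idx δ k) K →ₐ[K] K) := by
    rw [mw17cnI, Ideal.span_le]
    rintro _ ⟨g, hg, rfl⟩
    rw [SetLike.mem_coe, RingHom.mem_ker, aeval_rename]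
    exact hy g hg
  exact hle hf

theorem mw17cn_zero_of_aeval {m k : ℕ} {u : Mw17Idx δ m → K} {y : Mw17Idx δ k → K}
    (h : ∀ f ∈ mw17cnI T m k, MvPolynomial.aeval (Sum.elim u y) f = 0) : Mw17cnZero T k y := by
  intro g hg
  have := h (rename Sum.inr g) (Ideal.subset_span ⟨g, hg, rfl⟩)
  rwa [aeval_rename] at this

/-! ### the polynomials `p_β(u, y) = Σ_i G β i (u) · y_i` -/

/-- the bihomogeneous polynomial `p_β(u,y) = Σ_i G β i (u) · y_i` -/
def mw17cnP {ι : Type*} {m k : ℕ} (G : ι → Mw17Idx δ k → MvPolynomial (Mw17Idx δ m) K) (β : ι) :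
    MvPolynomial (Mw17Idx δ m ⊕ Mw17Idx δ k) K :=
  ∑ i, rename Sum.inl (G β i) * X (Sum.inr i)

theorem mw17cnP_bihom {ι : Type*} {a m k : ℕ}
    (G : ι → Mw17Idx δ k → MvPolynomial (Mw17Idx δ m) K)
    (hG : ∀ β i, (G β i).IsHomogeneous a) (β : ι) :
    IsWeightedHomogeneous (htnsBiw (Mw17Idx δ m) (Mw17Idx δ k)) (mw17cnP G β) (a, 1) := by
  apply IsWeightedHomogeneous.sum
  intro i _
  have h1 := (mw17cn_bihom_inl (ι₂ := Mw17Idx δ k) (G β i) (hG β i)).mul
    (isWeightedHomogeneous_X K (htnsBiw (Mw17Idx δ m) (Mw17Idx δ k)) (Sum.inr i))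
  have h2 : ((a, 0) : ℕ × ℕ) + htnsBiw (Mw17Idx δ m) (Mw17Idx δ k) (Sum.inr i) = (a, 1) := by
    simp [htnsBiw]
  rwa [h2] at h1

theorem mw17cnP_aeval {ι : Type*} {m k : ℕ}
    (G : ι → Mw17Idx δ k → MvPolynomial (Mw17Idx δ m) K) (β : ι)
    (u : Mw17Idx δ m → K) (y : Mw17Idx δ k → K) :
    MvPolynomial.aeval (Sum.elim u y) (mw17cnP G β) =
      ∑ i, MvPolynomial.eval u (G β i) * y i := by
  rw [mw17cnP, map_sum]
  apply Finset.sum_congr rfl
  intro i _
  rw [map_mul, aeval_rename, aeval_X]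
  rfl

/-- no common zero of the `p_β` on `(K^{Idx m} ∖ 0) × (cone ∖ 0)` -/
theorem mw17cn_no_common_zero {ι : Type*} {k m : ℕ} (hk : δ.N + 2 * δ.bound ≤ k)
    (t : Mw17Idx δ k) (ht : mw17Wt t = k)
    (G : ι → Mw17Idx δ k → MvPolynomial (Mw17Idx δ m) K)
    (hfin : ∀ u : Mw17Idx δ m → K, u ≠ 0 → ∀ q : Mw17Pt T,
      ∃ β, ∑ i, MvPolynomial.eval u (G β i) * mw17Psi T k q i ≠ 0)
    (hinf : ∀ u : Mw17Idx δ m → K, u ≠ 0 → ∃ β, MvPolynomial.eval u (G β t) ≠ 0)
    (u : Mw17Idx δ m → K) (y : Mw17Idx δ k → K) (hy : Mw17cnZero T k y)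
    (hp : ∀ β, MvPolynomial.aeval (Sum.elim u y) (mw17cnP G β) = 0) : u = 0 ∨ y = 0 := by
  by_contra hne
  push Not at hne
  obtain ⟨hu, hy0⟩ := hne
  rcases mw17cn_locus hk hy with ⟨c, q, hc, rfl⟩ | hI
  · obtain ⟨β, hβ⟩ := hfin u hu q
    have h1 := hp β
    rw [mw17cnP_aeval] at h1
    apply hβ
    have h2 : ∑ i, MvPolynomial.eval u (G β i) * (c • mw17Psi T k q) i =
        c * ∑ i, MvPolynomial.eval u (G β i) * mw17Psi T k q i := by
      rw [Finset.mul_sum]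
      apply Finset.sum_congr rfl
      intro i _
      rw [Pi.smul_apply, smul_eq_mul]
      ring
    rw [h2] at h1
    exact (mul_eq_zero.mp h1).resolve_left hc
  · obtain ⟨β, hβ⟩ := hinf u hu
    have hlt : ∀ i : Mw17Idx δ k, i ≠ t → y i = 0 := by
      intro i hi
      apply hI
      have h1 := mw17Wt_le i
      rcases lt_or_eq_of_le h1 with h2 | h2
      · exact h2
      · exact absurd (mw17cn_idx_ext (h2.trans ht.symm)) hi
    have h1 := hp β
    rw [mw17cnP_aeval, Finset.sum_eq_single t (fun i _ hi => by rw [hlt i hi, mul_zero])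
      (fun h => absurd (Finset.mem_univ t) h)] at h1
    have hyt : y t ≠ 0 := by
      intro h
      apply hy0
      funext i
      by_cases hi : i = t
      · rw [hi, h]; rfl
      · exact hlt i hi
    exact hβ ((mul_eq_zero.mp h1).resolve_right hyt)

/-- **LOC-2, algebraic form**: the bihomogeneous Nullstellensatz certificate on the curve. -/
theorem mw17cn_certificate [IsAlgClosed K] {ι : Type*} [Fintype ι] (a k m : ℕ)
    (hk : δ.N + 2 * δ.bound ≤ k) (t : Mw17Idx δ k) (ht : mw17Wt t = k)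
    (G : ι → Mw17Idx δ k → MvPolynomial (Mw17Idx δ m) K)
    (hG : ∀ β i, (G β i).IsHomogeneous a)
    (hfin : ∀ u : Mw17Idx δ m → K, u ≠ 0 → ∀ q : Mw17Pt T,
      ∃ β, ∑ i, MvPolynomial.eval u (G β i) * mw17Psi T k q i ≠ 0)
    (hinf : ∀ u : Mw17Idx δ m → K, u ≠ 0 → ∃ β, MvPolynomial.eval u (G β t) ≠ 0) :
    ∃ (M₁ M₂ : ℕ)
      (Q : (Mw17Idx δ m × Mw17Idx δ k) × ι → MvPolynomial (Mw17Idx δ m ⊕ Mw17Idx δ k) K),
      (∀ c, IsWeightedHomogeneous (htnsBiw (Mw17Idx δ m) (Mw17Idx δ k)) (Q c) (M₁, M₂)) ∧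
      ∀ (u : Mw17Idx δ m → K) (q : Mw17Pt T) (i : Mw17Idx δ m) (l : Mw17Idx δ k),
        ∑ β, MvPolynomial.aeval (Sum.elim u (mw17Psi T k q)) (Q ((i, l), β)) *
            (∑ j, MvPolynomial.eval u (G β j) * mw17Psi T k q j) =
          u i ^ (M₁ + a) * mw17Psi T k q l ^ (M₂ + 1) := by
  obtain ⟨M₁, M₂, Q, hQ, hcert⟩ := htns_exists_bicertificate (K := K) (mw17cnI T m k)
    (mw17cnI_component_mem T m k) (mw17cnP G) (mw17cnP_bihom G hG)
    (fun u y hI hp => mw17cn_no_common_zero hk t ht G hfin hinf u y (mw17cn_zero_of_aeval hI) hp)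
  refine ⟨M₁, M₂, Q, hQ, fun u q i l => ?_⟩
  have h1 := htns_aeval_bicertificate (L := K) (mw17cnI T m k) hcert u (mw17Psi T k q)
    (fun f hf => mw17cnI_aeval_eq_zero (mw17cn_zero_psi k q) f hf) i l
  rw [← h1]
  apply Finset.sum_congr rfl
  intro β _
  rw [mw17cnP_aeval]

end Fermat.Agent.MW17
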