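import Mathlib
import Fermat.Agent.MW17.Cone
import Fermat.Agent.MW17.Tuple

/-!
# Program MW (S17), heights half (A): helper10's hypothesis `Mw17BpfLoc T` (LOC-2 with `a = 0`)

Owner: helper19.  Namespace `Fermat.Agent.MW17`, prefix `mw17cn`.

`mw17cn_bpfLoc [IsAlgClosed K] (T) : Mw17BpfLoc T` at EVERY level `l`: a tuple of `L_l` without
common zero at the finite points and containing an element of exact order `l` dominates `ψ_l`.
For `l ≥ δ.N + 2·δ.bound` this is `mw17cn_loc2` with `a = 0`; for small `l` multiply the tuple by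
the monomials of `L_e`, `e := δ.N + 2·δ.bound`.
-/

set_option autoImplicit false

noncomputable section

namespace Fermat.Agent.MW17

open Fermat.Agent.V Fermat.Agent.HT MvPolynomial

variable {K : Type*} [Field K] {δ : V27pShape} (T : V27pTable K δ)

theorem mw17cn_mon_le {m : ℕ} (i : Mw17Idx δ m) : V27pLe (mw17Mon T i) (mw17Wt i) := by
  rw [← v27pOrd_le_iff, mw17cn_ord_mon]

/-- a section whose top coefficient vanishes has order `< l` -/
theorem mw17cn_sec_le_pred {l : ℕ} (t : Mw17Idx δ l) (ht : mw17Wt t = l)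
    (u : Mw17Idx δ l → K) (hu : u t = 0) : V27pLe (mw17Sec T l u) (l - 1) := by
  rw [← mem_v27pL, mw17Sec]
  refine Submodule.sum_mem _ fun i _ => ?_
  by_cases hi : i = t
  · rw [hi, hu, zero_smul]
    exact Submodule.zero_mem _
  · refine Submodule.smul_mem _ _ ?_
    rw [mem_v27pL]
    refine (mw17cn_mon_le T i).mono ?_
    have := mw17cn_wt_lt_of_ne ht hi
    omega

/-- `Mw17BpfLoc` at the large levels (every absolute value) -/
theorem mw17cn_bpf_large [IsAlgClosed K] {ι : Type*} [Fintype ι] {l : ℕ}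
    (hl : δ.N + 2 * δ.bound ≤ l) (t : ι → V27pB T) (hle : ∀ i, V27pLe (t i) l)
    (htop : ∃ i, t i ≠ 0 ∧ v27pOrd (t i) = l) (hz : ∀ χ : Mw17Pt T, ∃ i, χ (t i) ≠ 0) :
    ∃ C : HtConst K, ∀ (w : AbsoluteValue K ℝ) (χ : Mw17Pt T),
      htlSup w (mw17Psi T l χ) ≤ C.val w * ⨆ i, w (χ (t i)) := by
  have hsec : ∀ i, ∃ u : Mw17Idx δ l → K, t i = mw17Sec T l u := fun i =>
    mw17tu_exists_sec T (hle i)
  choose u hu using hsec
  obtain ⟨tp, htp⟩ := mw17cn_exists_top (δ := δ) (k := l) (by omega)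
  have hl1 : 1 ≤ l := by have := δ.hN; omega
  obtain ⟨C, hC⟩ := mw17cn_loc2 T 0 l 0 hl tp htp (fun β i => MvPolynomial.C (u β i))
    (fun β i => isHomogeneous_C _ _)
    (fun _ _ q => by
      obtain ⟨β, hβ⟩ := hz q
      refine ⟨β, ?_⟩
      simp only [eval_C]
      rwa [← mw17Sec_apply, ← hu β])
    (fun _ _ => by
      obtain ⟨β, hβ0, hβ⟩ := htop
      refine ⟨β, ?_⟩
      rw [eval_C]
      intro h0
      have h1 := mw17cn_sec_le_pred T tp htp (u β) h0
      rw [← hu β, ← v27pOrd_le_iff, hβ] at h1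
      omega)
  refine ⟨C, fun w χ => ?_⟩
  have h1 := hC w 0 χ
  simp only [pow_zero, one_mul, eval_C] at h1
  refine h1.trans (le_of_eq ?_)
  congr 1
  refine iSup_congr fun β => ?_
  rw [hu β, mw17Sec_apply]

/-- **helper10's hypothesis `Mw17BpfLoc T`, at every level.** -/
theorem mw17cn_bpfLoc [IsAlgClosed K] : Mw17BpfLoc T := by
  intro ι _ l t hle htop hz
  classical
  set e : ℕ := δ.N + 2 * δ.bound with he
  obtain ⟨te, hte⟩ := mw17cn_exists_top (δ := δ) (k := e) (by omega)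
  set t' : ι × Mw17Idx δ e → V27pB T := fun p => t p.1 * mw17Mon T p.2 with ht'
  have hle' : ∀ p, V27pLe (t' p) (l + e) := fun p =>
    (hle p.1).mul ((mw17cn_mon_le T p.2).mono (mw17Wt_le _))
  have htop' : ∃ p, t' p ≠ 0 ∧ v27pOrd (t' p) = l + e := by
    obtain ⟨i₀, h0, hord⟩ := htop
    refine ⟨(i₀, te), mul_ne_zero h0 (mw17cn_mon_ne_zero T te), ?_⟩
    rw [ht', v27pOrd_mul h0 (mw17cn_mon_ne_zero T te), hord, mw17cn_ord_mon, hte]
  have hz' : ∀ χ : Mw17Pt T, ∃ p, χ (t' p) ≠ 0 := by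
    intro χ
    obtain ⟨i, hi⟩ := hz χ
    refine ⟨(i, mw17IdxZero δ e), ?_⟩
    rw [ht']
    simp only [mw17Mon_zero, mul_one]
    exact hi
  obtain ⟨C₁, hC₁⟩ := mw17cn_bpf_large T (l := l + e) (by omega) t' hle' htop' hz'
  have hprod : ∀ p : Mw17Idx δ l × Mw17Idx δ e, ∃ C : HtConst K, ∀ (w : HtAbs K) (χ : Mw17Pt T),
      w (χ (mw17Mon T p.1 * mw17Mon T p.2)) ≤ C.val w * htlSup w (mw17Psi T (l + e) χ) :=
    fun p => mw17tu_le_psi T (((mw17cn_mon_le T p.1).mono (mw17Wt_le _)).mul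
      ((mw17cn_mon_le T p.2).mono (mw17Wt_le _)))
  choose Cp hCp using hprod
  obtain ⟨C₂, hC₂⟩ := htl_val_finset Finset.univ Cp
  obtain ⟨C, hC⟩ := htl_val_mul C₂ C₁
  refine ⟨C, fun w χ => ?_⟩
  set S : ℝ := ⨆ i, w (χ (t i)) with hS
  have hS0 : 0 ≤ S := Real.iSup_nonneg fun i => (w : AbsoluteValue K ℝ).nonneg _
  set E : ℝ := htlSup w (mw17Psi T e χ) with hE
  have hE1 : 1 ≤ E := htl_one_le_sup (mw17Psi_zero T e χ)
  have hE0 : 0 < E := lt_of_lt_of_le one_pos hE1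
  have hsup' : (⨆ p, (w : AbsoluteValue K ℝ) (χ (t' p))) ≤ S * E := by
    refine Real.iSup_le (fun p => ?_) (mul_nonneg hS0 hE0.le)
    rw [ht']
    simp only [map_mul]
    refine mul_le_mul ?_ (htl_le_sup (w : AbsoluteValue K ℝ) (mw17Psi T e χ) p.2)
      ((w : AbsoluteValue K ℝ).nonneg _) hS0
    exact Finite.le_ciSup (fun i => (w : AbsoluteValue K ℝ) (χ (t i))) p.1
  refine htlSup_le (mul_nonneg (htl_val_nonneg C w) hS0) fun a => ?_
  obtain ⟨b, hb⟩ := htl_exists_eq_sup (w : AbsoluteValue K ℝ) (mw17Psi T e χ)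
  have h1 : (w : AbsoluteValue K ℝ) (mw17Psi T l χ a) * E ≤ C.val w * S * E := by
    have h2 := hCp (a, b) w χ
    have h3 := hC₂ (a, b) (Finset.mem_univ _) w
    have h4 := hC₁ w χ
    calc (w : AbsoluteValue K ℝ) (mw17Psi T l χ a) * E
        = w (χ (mw17Mon T a * mw17Mon T b)) := by
          rw [hE, hb, map_mul, map_mul]; rfl
      _ ≤ (Cp (a, b)).val w * htlSup w (mw17Psi T (l + e) χ) := h2
      _ ≤ C₂.val w * (C₁.val w * (S * E)) := by
          refine mul_le_mul h3 (h4.trans ?_) (htlSup_nonneg _ _) (htl_val_nonneg _ _)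
          exact mul_le_mul_of_nonneg_left hsup' (htl_val_nonneg _ _)
      _ = (C₂.val w * C₁.val w) * S * E := by ring
      _ ≤ C.val w * S * E := by
          refine mul_le_mul_of_nonneg_right (mul_le_mul_of_nonneg_right (hC w) hS0) hE0.le
  exact le_of_mul_le_mul_right h1 hE0

end Fermat.Agent.MW17
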